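/-
S37 / RED-E2 (helper208, squad S28/S28): the four (H1) fields of `Red.Datum.Good`
for ANY reduction datum on `(F_N, F_{N,k})` whose coordinate is `j`.

  theorem good_H1 (N) [NeZero N] (A : ValuationSubring Qb) (hN : (N : kA A) ≠ 0)
      (G : Datum A (residue A) (FN N) (FNk A N))
      (hx  : ((G.x  : FN N)    : LaurentSeries Qb)     = jqModC Qb)
      (hxk : ((G.xk : FNk A N) : LaurentSeries (kA A)) = jqModC (kA A)) :
      FiniteDimensional Qb⟮G.x⟯ (FN N) ∧ FiniteDimensional (kA A)⟮G.xk⟯ (FNk A N) ∧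
      Algebra.IsSeparable (kA A)⟮G.xk⟯ (FNk A N) ∧
      Module.finrank Qb⟮G.x⟯ (FN N) = Module.finrank (kA A)⟮G.xk⟯ (FNk A N)

Both degrees are `ψ(N)` (`finrank_bar`, `finrank_k`).  Source: the uniform integral basis and the
separability theorem of `Fermat/Agent/S18/H208` (unconditional, on main).
-/
import Mathlib
import Fermat.Agent.S37.Red.SpecMod
import Fermat.Agent.S18.H208.M1
import Fermat.Agent.S28.H988.Degree

set_option autoImplicit false
set_option synthInstance.maxHeartbeats 400000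
set_option linter.unusedSectionVars false
set_option linter.style.haveILetI false

noncomputable section

namespace Fermat.Agent.S37.Red.H208

open ModularCurve AlgebraicCurve HahnSeries IsLocalRing IntermediateField Fermat.Agent.S28

section Generic

variable {k : Type} [Field k] {L : Type} [Field L] [Algebra k L] (F : IntermediateField k L)

/-- Elements of `k⟮x⟯ ⊆ F` lie in `k⟮x⟯ ⊆ L`. -/
theorem coe_mem_adjoin (x : F) (c : k⟮x⟯) : ((c : F) : L) ∈ k⟮(x : L)⟯ := by
  have h : (k⟮x⟯).map F.val = k⟮(x : L)⟯ := by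
    rw [IntermediateField.adjoin_map, Set.image_singleton]
    rfl
  rw [← h]
  exact ⟨(c : F), c.2, rfl⟩

/-- Elements of `k⟮x⟯ ⊆ L` come from `k⟮x⟯ ⊆ F`. -/
theorem exists_coe_eq (x : F) (d : k⟮(x : L)⟯) : ∃ c : k⟮x⟯, ((c : F) : L) = (d : L) := by
  have h : (k⟮x⟯).map F.val = k⟮(x : L)⟯ := by
    rw [IntermediateField.adjoin_map, Set.image_singleton]
    rfl
  have hd : (d : L) ∈ (k⟮x⟯).map F.val := by rw [h]; exact d.2
  obtain ⟨c, hc, hcd⟩ := hd
  exact ⟨⟨c, hc⟩, hcd⟩

/-- **Transfer of a basis** from the tower inside `L` to the tower of types. -/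
theorem finrank_of_basis (x : F) {n : ℕ} (v : Fin n → L) (hv : ∀ i, v i ∈ F)
    (hli : LinearIndependent k⟮(x : L)⟯ v)
    (hspan : ∀ y ∈ F, y ∈ Submodule.span k⟮(x : L)⟯ (Set.range v)) :
    FiniteDimensional k⟮x⟯ F ∧ Module.finrank k⟮x⟯ F = n := by
  classical
  set v' : Fin n → F := fun i => ⟨v i, hv i⟩ with hv'
  have hli' : LinearIndependent k⟮x⟯ v' := by
    rw [Fintype.linearIndependent_iff]
    intro c hc i
    have h1 : ∑ i, ((c i : F) : L) * v i = 0 := by
      have := congrArg (fun y : F => (y : L)) hc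
      simpa [Algebra.smul_def, hv'] using this
    have h2 := Fintype.linearIndependent_iff.mp hli
      (fun i => ⟨((c i : F) : L), coe_mem_adjoin F x (c i)⟩) (by
        simpa [IntermediateField.smul_def] using h1) i
    have h3 : ((c i : F) : L) = 0 := congrArg Subtype.val h2
    apply Subtype.ext
    apply Subtype.ext
    simpa using h3
  have hspan' : ⊤ ≤ Submodule.span k⟮x⟯ (Set.range v') := by
    intro y _
    obtain ⟨d, hd⟩ := (Submodule.mem_span_range_iff_exists_fun _).mp (hspan (y : L) y.2)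
    have hc : ∀ i, ∃ c : k⟮x⟯, ((c : F) : L) = (d i : L) := fun i => exists_coe_eq F x (d i)
    choose c hc using hc
    rw [Submodule.mem_span_range_iff_exists_fun]
    refine ⟨c, ?_⟩
    apply Subtype.ext
    rw [← hd]
    have : ((∑ i, c i • v' i : F) : L) = ∑ i, ((c i : F) : L) * v i := by
      rw [← IntermediateField.coe_val, map_sum]
      refine Finset.sum_congr rfl fun i _ => ?_
      simp [Algebra.smul_def, hv']
    rw [this]
    refine Finset.sum_congr rfl fun i _ => ?_
    rw [hc i, IntermediateField.smul_def, smul_eq_mul]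
  let b : Module.Basis (Fin n) k⟮x⟯ F := Module.Basis.mk hli' hspan'
  refine ⟨Module.Finite.of_basis b, ?_⟩
  rw [Module.finrank_eq_card_basis b, Fintype.card_fin]

/-- **Transfer of separability.** -/
theorem isSeparable_of_forall (x : F)
    (hsep : ∀ y ∈ F, IsSeparable k⟮(x : L)⟯ y) : Algebra.IsSeparable k⟮x⟯ F := by
  refine ⟨fun y => ?_⟩
  -- the comparison ring hom `k⟮x⟯ → k⟮x⟯`
  let φ : k⟮x⟯ →+* k⟮(x : L)⟯ :=
    { toFun := fun c => ⟨((c : F) : L), coe_mem_adjoin F x c⟩
      map_one' := rfl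
      map_mul' := fun _ _ => rfl
      map_zero' := rfl
      map_add' := fun _ _ => rfl }
  have hφsurj : Function.Surjective φ := by
    intro d
    obtain ⟨c, hc⟩ := exists_coe_eq F x d
    exact ⟨c, Subtype.ext hc⟩
  have hy := hsep (y : L) y.2
  obtain ⟨Q, hQ⟩ := Polynomial.map_surjective φ hφsurj (minpoly k⟮(x : L)⟯ (y : L))
  have hQsep : Q.Separable := by
    have : (Q.map φ).Separable := by rw [hQ]; exact hy
    exact (Polynomial.separable_map φ).mp this
  have hcomp : (F.val : F →+* L).comp (algebraMap k⟮x⟯ F) =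
      (algebraMap k⟮(x : L)⟯ L).comp φ := by
    ext c
    rfl
  have hroot : Polynomial.aeval y Q = 0 := by
    apply F.val.injective
    have h1 : (F.val : F →+* L) (Polynomial.eval₂ (algebraMap k⟮x⟯ F) y Q) =
        Polynomial.eval₂ ((F.val : F →+* L).comp (algebraMap k⟮x⟯ F)) ((F.val : F →+* L) y) Q :=
      Polynomial.hom_eval₂ _ _ _ _
    rw [hcomp, ← Polynomial.eval₂_map, hQ] at h1
    have h2 : Polynomial.eval₂ (algebraMap k⟮(x : L)⟯ L) (y : L)
        (minpoly k⟮(x : L)⟯ (y : L)) = 0 := minpoly.aeval _ _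
    rw [map_zero, Polynomial.aeval_def]
    exact h1.trans h2
  exact hQsep.of_dvd (minpoly.dvd _ _ hroot)

/-- `finrank_of_basis` with the coordinate given by an equation. -/
theorem finrank_of_basis' (x : F) {t : L} (ht : (x : L) = t) {n : ℕ} (v : Fin n → L)
    (hv : ∀ i, v i ∈ F) (hli : LinearIndependent k⟮t⟯ v)
    (hspan : ∀ y ∈ F, y ∈ Submodule.span k⟮t⟯ (Set.range v)) :
    FiniteDimensional k⟮x⟯ F ∧ Module.finrank k⟮x⟯ F = n := by
  subst ht
  exact finrank_of_basis F x v hv hli hspan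

/-- `isSeparable_of_forall` with the coordinate given by an equation. -/
theorem isSeparable_of_forall' (x : F) {t : L} (ht : (x : L) = t)
    (hsep : ∀ y ∈ F, IsSeparable k⟮t⟯ y) : Algebra.IsSeparable k⟮x⟯ F := by
  subst ht
  exact isSeparable_of_forall F x hsep

end Generic

section Modular

variable (N : ℕ) [NeZero N]

/-- `[F_{N,k} : k(x)] = ψ(N)` for every `x ∈ F_{N,k}` with `q`-expansion `j`
(`N` invertible in `k`). -/
theorem finrank_fullC (k : Type) [Field k] (hN : (N : k) ≠ 0)
    (x : modularFunctionFieldFullC k N) (hx : (x : LaurentSeries k) = jqModC k) :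
    FiniteDimensional k⟮x⟯ (modularFunctionFieldFullC k N) ∧
      Module.finrank k⟮x⟯ (modularFunctionFieldFullC k N) = dedekindPsi N := by
  obtain ⟨y, hy, h⟩ := S18.H208.M1.exists_basis N
  obtain ⟨hspan, hli⟩ := h k hN
  exact finrank_of_basis' (modularFunctionFieldFullC k N) x hx
    (fun i => coeffMap (Int.castRingHom k) (y i))
    (fun i => S18.H208.coeffMap_intCast_mem_full k N (hy i)) hli hspan

/-- `F_{N,k} / k(x)` is separable for every `x ∈ F_{N,k}` with `q`-expansion `j`
(`N` invertible in `k`). -/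
theorem isSeparable_fullC (k : Type) [Field k] (hN : (N : k) ≠ 0)
    (x : modularFunctionFieldFullC k N) (hx : (x : LaurentSeries k) = jqModC k) :
    Algebra.IsSeparable k⟮x⟯ (modularFunctionFieldFullC k N) :=
  isSeparable_of_forall' (modularFunctionFieldFullC k N) x hx
    (fun _ hy => S18.H208.M1.isSeparable k N hN hy)

/-- `[F_N : Q̄(x)] = ψ(N)` for every `x ∈ F_N` with `q`-expansion `j`. -/
theorem finrank_bar (x : FN N) (hx : ((x : FN N) : LaurentSeries Qb) = jqModC Qb) :
    FiniteDimensional Qb⟮x⟯ (FN N) ∧ Module.finrank Qb⟮x⟯ (FN N) = dedekindPsi N := by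
  obtain ⟨y, hy, h⟩ := S18.H208.M1.exists_basis N
  obtain ⟨hspan, hli⟩ := h Qb (Nat.cast_ne_zero.mpr (NeZero.ne N))
  refine finrank_of_basis' (modularFunctionFieldBar N) x hx
    (fun i => coeffMap (Int.castRingHom Qb) (y i)) (fun i => ?_) hli (fun z hz => ?_)
  · rw [S28.H988.modularFunctionFieldBar_eq_fullC]
    exact S18.H208.coeffMap_intCast_mem_full Qb N (hy i)
  · rw [S28.H988.modularFunctionFieldBar_eq_fullC] at hz
    exact hspan z hz

/-- `[F_{N,k} : k(x̄)] = ψ(N)` for the residue field `k` of `A`. -/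
theorem finrank_k (A : ValuationSubring Qb) (hN : (N : kA A) ≠ 0) (x : FNk A N)
    (hx : ((x : FNk A N) : LaurentSeries (kA A)) = jqModC (kA A)) :
    FiniteDimensional (kA A)⟮x⟯ (FNk A N) ∧
      Module.finrank (kA A)⟮x⟯ (FNk A N) = dedekindPsi N :=
  finrank_fullC N (kA A) hN x hx

/-- **RED-E2**: the four (H1) fields of `Datum.Good`, for ANY reduction datum on
`(F_N, F_{N,k})` whose coordinate and reduced coordinate have `q`-expansion `j`. -/
theorem good_H1 (A : ValuationSubring Qb) (hN : (N : kA A) ≠ 0)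
    (G : Datum A (residue A) (FN N) (FNk A N))
    (hx : ((G.x : FN N) : LaurentSeries Qb) = jqModC Qb)
    (hxk : ((G.xk : FNk A N) : LaurentSeries (kA A)) = jqModC (kA A)) :
    FiniteDimensional Qb⟮G.x⟯ (FN N) ∧ FiniteDimensional (kA A)⟮G.xk⟯ (FNk A N) ∧
      Algebra.IsSeparable (kA A)⟮G.xk⟯ (FNk A N) ∧
      Module.finrank Qb⟮G.x⟯ (FN N) = Module.finrank (kA A)⟮G.xk⟯ (FNk A N) := by
  obtain ⟨h1, h2⟩ := finrank_bar N G.x hx
  obtain ⟨h3, h4⟩ := finrank_k N A hN G.xk hxk
  exact ⟨h1, h3, isSeparable_fullC N (kA A) hN G.xk hxk, h2.trans h4.symm⟩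

end Modular

end Fermat.Agent.S37.Red.H208

end
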